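/-
Programme TW (S56), sub-programme C3 (Tate's global Euler characteristic), brick C3-T3
(Shapiro bridge), helper6.  ABSTRACT PART.

Setting: `π : G →* D` a surjective group homomorphism, `C ≤ D`, `H = π⁻¹ C ≤ G`,
`σ : Representation k C W`.  Let
* `M  = Rep.of ((Representation.coind C.subtype σ).comp π)` (the inflation to `G` of Mathlib's
  coinduced module `{φ : D → W | φ (c * d) = σ c (φ d)}`, right translation), and
* `WH = Rep.of (σ.comp (π.subgroupComap C))` (`W` as an `H`-module).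

If the level basis `𝓑G` of `G` has a member contained in `ker π`, then `φ ↦ φ ∘ π` is an
equivariant linear bijection `M ≃ scoind H.subtype 𝓑G WH` (helper28's smooth coinduction), hence
(PRO/ShapiroSm28 + PRO/ShapiroLevel28) `Hⁿ(𝓑G; M) ≃ Hⁿ(𝓑H; WH)` for `n = 1, 2` whenever the basis
`𝓑H` of `H` is the pull-back of `𝓑G`.  Also `M^G ≃ WH^H = W^C`.
-/
import Mathlib
import Fermat.Agent.PT.PRO.LevelCoh28
import Fermat.Agent.PT.PRO.LevelCohRes28
import Fermat.Agent.PT.PRO.SmoothCoind28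
import Fermat.Agent.PT.PRO.ShapiroLevel28
import Fermat.Agent.PT.PRO.ShapiroSm28

set_option autoImplicit false
set_option linter.unusedSectionVars false

universe u

namespace Fermat.Agent.TW.TateShap6.Abstract

open Fermat.Agent.PT.PRO.LevelCoh28 Fermat.Agent.PT.PRO.LevelCohRes28
  Fermat.Agent.PT.PRO.SmoothCoind28 Fermat.Agent.PT.PRO.ShapiroLevel28
  Fermat.Agent.PT.PRO.ShapiroSm28

variable {k G D W : Type u} [CommRing k] [Group G] [Group D] [AddCommGroup W] [Module k W]
variable (π : G →* D) (C : Subgroup D) (σ : Representation k C W) (𝓑G : LevelBasis G)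

/-- The inflation to `G` (along `π`) of the `D`-module coinduced from `σ`. -/
noncomputable abbrev inflCoind : Rep.{u} k G :=
  Rep.of ((Representation.coind C.subtype σ).comp π)

/-- `W` as a module over `H = π⁻¹ C` (acting through `π : H → C`). -/
noncomputable abbrev resComap : Rep.{u} k ↥(C.comap π) :=
  Rep.of (σ.comp (π.subgroupComap C))

theorem inflCoind_ρ_apply (g : G) (φ : inflCoind π C σ) (d : D) :
    ((inflCoind π C σ).ρ g φ).1 d = φ.1 (d * π g) := rfl

theorem resComap_ρ_apply (h : ↥(C.comap π)) (w : W) :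
    (resComap π C σ).ρ h w = σ ⟨π h, h.2⟩ w := rfl

theorem inflCoind_equivariant (φ : inflCoind π C σ) (c : C) (d : D) :
    φ.1 ((c : D) * d) = σ c (φ.1 d) := φ.2 c d

/-- Elements of `ker π` act trivially on the inflation. -/
theorem inflCoind_ρ_of_mem_ker {g : G} (hg : g ∈ π.ker) : (inflCoind π C σ).ρ g = 1 := by
  refine LinearMap.ext fun φ => Subtype.ext (funext fun d => ?_)
  rw [inflCoind_ρ_apply, MonoidHom.mem_ker.1 hg, mul_one]
  rfl

/-- Elements of `ker π` (which lie in `H`) act trivially on `W`. -/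
theorem resComap_ρ_of_mem_ker {h : ↥(C.comap π)} (hh : (h : G) ∈ π.ker) :
    (resComap π C σ).ρ h = 1 := by
  refine LinearMap.ext fun w => ?_
  rw [resComap_ρ_apply]
  have : (⟨π h, h.2⟩ : C) = 1 := Subtype.ext (MonoidHom.mem_ker.1 hh)
  rw [this, map_one]

/-! ### The comparison map `φ ↦ φ ∘ π` -/

section Compare

variable (hker : ∃ U ∈ 𝓑G.sets, U ≤ π.ker)

/-- `φ ↦ φ ∘ π`, from the inflated coinduced module to the smooth coinduced module. -/
noncomputable def toScoind (hker : ∃ U ∈ 𝓑G.sets, U ≤ π.ker) :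
    inflCoind π C σ →ₗ[k] scoind (k := k) (C.comap π).subtype 𝓑G (resComap π C σ) where
  toFun φ := ⟨fun g => φ.1 (π g), fun h g => by
      show φ.1 (π ((h : G) * g)) = σ ⟨π h, h.2⟩ (φ.1 (π g))
      rw [map_mul]
      exact φ.2 ⟨π h, h.2⟩ (π g), by
      obtain ⟨U, hU, hUk⟩ := hker
      exact ⟨U, hU, fun g s hs => by
        show φ.1 (π (g * s)) = φ.1 (π g)
        rw [map_mul, MonoidHom.mem_ker.1 (hUk hs), mul_one]⟩⟩
  map_add' _ _ := rfl
  map_smul' _ _ := rfl

@[simp] theorem toScoind_apply (φ : inflCoind π C σ) (g : G) :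
    (toScoind π C σ 𝓑G hker φ).1 g = φ.1 (π g) := rfl

theorem toScoind_equivariant (γ : G) (φ : inflCoind π C σ) :
    toScoind π C σ 𝓑G hker ((inflCoind π C σ).ρ γ φ) =
      (scoind (k := k) (C.comap π).subtype 𝓑G (resComap π C σ)).ρ γ
        (toScoind π C σ 𝓑G hker φ) := by
  refine Subtype.ext (funext fun g => ?_)
  show φ.1 (π g * π γ) = φ.1 (π (g * γ))
  rw [map_mul]

/-- A function in the smooth coinduced module only depends on the image in `D`. -/
theorem scoind_apply_eq_of_map_eq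
    (f : scoind (k := k) (C.comap π).subtype 𝓑G (resComap π C σ)) {g g' : G}
    (h : π g = π g') : f.1 g = f.1 g' := by
  have hn : g' * g⁻¹ ∈ π.ker := by
    rw [MonoidHom.mem_ker, map_mul, map_inv, ← h, mul_inv_cancel]
  have hnH : g' * g⁻¹ ∈ C.comap π := by
    rw [Subgroup.mem_comap, MonoidHom.mem_ker.1 hn]
    exact C.one_mem
  have h1 := f.2.1 ⟨g' * g⁻¹, hnH⟩ g
  have h2 : (C.comap π).subtype ⟨g' * g⁻¹, hnH⟩ * g = g' := by
    show g' * g⁻¹ * g = g'
    group
  rw [h2] at h1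
  rw [h1, resComap_ρ_of_mem_ker π C σ (h := ⟨g' * g⁻¹, hnH⟩) hn]
  rfl

include hker in
theorem toScoind_bijective (hπ : Function.Surjective π) :
    Function.Bijective (toScoind π C σ 𝓑G hker) := by
  constructor
  · intro φ φ' h
    refine Subtype.ext (funext fun d => ?_)
    obtain ⟨g, rfl⟩ := hπ d
    exact congrFun (congrArg Subtype.val h) g
  · intro f
    have hf : ∀ g, f.1 (Function.surjInv hπ (π g)) = f.1 g := fun g =>
      scoind_apply_eq_of_map_eq π C σ 𝓑G f (Function.surjInv_eq hπ (π g))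
    refine ⟨⟨fun d => f.1 (Function.surjInv hπ d), ?_⟩, Subtype.ext (funext hf)⟩
    intro c d
    obtain ⟨g, rfl⟩ := hπ d
    obtain ⟨h, hh⟩ := hπ (c : D)
    have hhH : h ∈ C.comap π := by
      rw [Subgroup.mem_comap, hh]
      exact c.2
    show f.1 (Function.surjInv hπ (C.subtype c * π g)) = σ c (f.1 (Function.surjInv hπ (π g)))
    have e1 : C.subtype c * π g = π (h * g) := by
      rw [map_mul, hh]
      rfl
    rw [e1, hf, hf]
    have h1 := f.2.1 ⟨h, hhH⟩ g
    have h2 : (C.comap π).subtype ⟨h, hhH⟩ * g = h * g := rfl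
    rw [h2] at h1
    rw [h1, resComap_ρ_apply]
    congr 2
    exact Subtype.ext hh

end Compare

/-! ### Shapiro's lemma for the inflated coinduced module -/

section Shapiro

variable (𝓑H : LevelBasis ↥(C.comap π)) (hker : ∃ U ∈ 𝓑G.sets, U ≤ π.ker)
  (hcomap : ∀ U ∈ 𝓑G.sets, U.comap (C.comap π).subtype ∈ 𝓑H.sets)
  (hind : ∀ V ∈ 𝓑H.sets, ∃ U ∈ 𝓑G.sets, V = U.comap (C.comap π).subtype)

include hker hcomap in
/-- `W` is a discrete `H`-module. -/
theorem isDiscrete_resComap : IsDiscrete 𝓑H.sets (resComap π C σ) := by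
  obtain ⟨U, hU, hUk⟩ := hker
  intro w
  refine ⟨_, hcomap U hU, fun s hs => ?_⟩
  rw [resComap_ρ_of_mem_ker π C σ (hUk hs)]
  rfl

include hker in
/-- The inflated coinduced module is a discrete `G`-module. -/
theorem isDiscrete_inflCoind : IsDiscrete 𝓑G.sets (inflCoind π C σ) := by
  obtain ⟨U, hU, hUk⟩ := hker
  intro φ
  refine ⟨U, hU, fun s hs => ?_⟩
  rw [inflCoind_ρ_of_mem_ker π C σ (hUk hs)]
  rfl

include hcomap in
theorem isLevelHom_of_comap' : IsLevelHom (C.comap π).subtype 𝓑H.sets 𝓑G.sets :=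
  fun U hU => ⟨U.comap (C.comap π).subtype, hcomap U hU, le_rfl⟩

include hind in
theorem induced_of_comap' :
    ∀ V ∈ 𝓑H.sets, ∃ U ∈ 𝓑G.sets, U.comap (C.comap π).subtype ≤ V := fun V hV => by
  obtain ⟨U, hU, rfl⟩ := hind V hV
  exact ⟨U, hU, le_rfl⟩

/-- **Shapiro, degree 1**: `H¹(𝓑G; Coind_C^D σ) ≃ H¹(𝓑H; W)`. -/
noncomputable def h1Equiv (hπ : Function.Surjective π) :
    H1 𝓑G (inflCoind π C σ) ≃ₗ[k] H1 𝓑H (resComap π C σ) :=
  (LinearEquiv.ofBijective _ (mapH1_bijective (𝓑 := 𝓑G) (toScoind π C σ 𝓑G hker)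
      (toScoind_equivariant π C σ 𝓑G hker) (toScoind_bijective π C σ 𝓑G hker hπ))).trans
    (sh1Equiv (C.comap π).subtype 𝓑G 𝓑H (isLevelHom_of_comap' π C 𝓑G 𝓑H hcomap)
      (induced_of_comap' π C 𝓑G 𝓑H hind) (resComap π C σ)
      (isDiscrete_resComap π C σ 𝓑G 𝓑H hker hcomap))

/-- **Shapiro, degree 2**: `H²(𝓑G; Coind_C^D σ) ≃ H²(𝓑H; W)`. -/
noncomputable def h2Equiv (hπ : Function.Surjective π) :
    H2 𝓑G (inflCoind π C σ) ≃ₗ[k] H2 𝓑H (resComap π C σ) :=
  (LinearEquiv.ofBijective _ (mapH2_bijective (𝓑 := 𝓑G) (toScoind π C σ 𝓑G hker)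
      (toScoind_equivariant π C σ 𝓑G hker) (toScoind_bijective π C σ 𝓑G hker hπ))).trans
    (sh2Equiv (C.comap π).subtype 𝓑G 𝓑H (isLevelHom_of_comap' π C 𝓑G 𝓑H hcomap)
      (induced_of_comap' π C 𝓑G 𝓑H hind) (resComap π C σ)
      (isDiscrete_resComap π C σ 𝓑G 𝓑H hker hcomap))

end Shapiro

/-! ### Invariants -/

section Invariants

/-- `W^H = W^C` (as submodules of `W`) when `π` is surjective. -/
theorem invariants_resComap (hπ : Function.Surjective π) :
    (resComap π C σ).ρ.invariants = σ.invariants := by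
  ext w
  constructor
  · intro hw c
    obtain ⟨h, hh⟩ := hπ (c : D)
    have hhH : h ∈ C.comap π := by
      rw [Subgroup.mem_comap, hh]
      exact c.2
    have := hw ⟨h, hhH⟩
    rw [resComap_ρ_apply] at this
    convert this using 3
    exact Subtype.ext hh.symm
  · intro hw h
    rw [resComap_ρ_apply]
    exact hw _

/-- **Shapiro, degree 0**: `(Coind_C^D σ)^G ≃ W^C`, `φ ↦ φ 1`. -/
noncomputable def h0Equiv (hπ : Function.Surjective π) :
    ↥(inflCoind π C σ).ρ.invariants ≃ₗ[k] ↥σ.invariants where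
  toFun φ := ⟨φ.1.1 1, fun c => by
    have h1 := φ.1.2 c 1
    rw [mul_one] at h1
    obtain ⟨g, hg⟩ := hπ (c : D)
    have h2 := congrFun (congrArg Subtype.val (φ.2 g)) 1
    rw [inflCoind_ρ_apply, one_mul, hg] at h2
    rw [← h1]
    exact h2⟩
  map_add' _ _ := rfl
  map_smul' _ _ := rfl
  invFun w := ⟨⟨fun _ => w.1, fun c _ => (w.2 c).symm⟩, fun _ => rfl⟩
  left_inv φ := by
    refine Subtype.ext (Subtype.ext (funext fun d => ?_))
    obtain ⟨g, rfl⟩ := hπ d
    have h2 := congrFun (congrArg Subtype.val (φ.2 g)) 1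
    rw [inflCoind_ρ_apply, one_mul] at h2
    exact h2.symm
  right_inv _ := rfl

/-- **Shapiro, degree 0**, with the `H`-module `W` on the right. -/
noncomputable def h0Equiv' (hπ : Function.Surjective π) :
    ↥(inflCoind π C σ).ρ.invariants ≃ₗ[k] ↥(resComap π C σ).ρ.invariants :=
  (h0Equiv π C σ hπ).trans (LinearEquiv.ofEq _ _ (invariants_resComap π C σ hπ).symm)

end Invariants

end Fermat.Agent.TW.TateShap6.Abstract
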