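/-
Programme TW (S56), sub-programme C3 (Tate's global Euler characteristic), brick C3-T3
(Shapiro bridge), helper6.  ARITHMETIC INSTANCE.

`F/ℚ` finite Galois inside `ℚ̄`, unramified outside `S`; `D = Gal(F/ℚ)`,
`π = AlgEquiv.restrictNormalHom F : Γ →* D`; `C ≤ D`, `H = π⁻¹ C = Gal(ℚ̄/F^C)`;
`σ : Representation (ZMod p) C W`.  With

* `M  = Rep.of ((Representation.coind C.subtype σ).comp π) : Rep (ZMod p) Γ`,
* `WH = Rep.of (σ.comp (π.subgroupComap C)) : Rep (ZMod p) ↥H`,
* `𝓑H = LevelBridge13.pullBasisS H.subtype S`,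

we prove `Hⁿ(globalBasis S; M) ≃ Hⁿ(𝓑H; WH)` for `n = 1, 2`, `M^Γ ≃ WH^H = W^C`, and that `M` is
`GWIface97.IsGood S` when `W` is finite-dimensional.
-/
import Mathlib
import Fermat.Agent.PT.BR.LevelBridge13
import Fermat.Agent.TW.GWIface97
import Fermat.Agent.TW.TateShap6.Abstract

set_option autoImplicit false
set_option linter.unusedSectionVars false
set_option linter.style.haveILetI false
-- instance search through `(Rep.of ρ).V` needs a little more than the default 20000
set_option synthInstance.maxHeartbeats 200000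

namespace Fermat.Agent.TW.TateShap6.Main

open Fermat.Agent.PT.PRO Fermat.Agent.PT.BR Fermat.Agent.PT.BR.LevelBridge13
open Fermat.Agent.TW.TateShap6

local notation "Qbar" => AlgebraicClosure ℚ
local notation "Γ" => (AlgebraicClosure ℚ ≃ₐ[ℚ] AlgebraicClosure ℚ)

local instance isAlgClosureQbarTS6 : IsAlgClosure ℚ Qbar := ⟨inferInstance, inferInstance⟩
local instance normalQbarTS6 : Normal ℚ Qbar := IsAlgClosure.normal ℚ Qbar

variable {p : ℕ} [Fact p.Prime] (S : Finset Nat.Primes) (F : IntermediateField ℚ Qbar)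
  [FiniteDimensional ℚ F] [IsGalois ℚ F]
  (C : Subgroup (↥F ≃ₐ[ℚ] ↥F)) {W : Type} [AddCommGroup W] [Module (ZMod p) W]
  (σ : Representation (ZMod p) C W)

/-- The restriction `π : Γ →* Gal(F/ℚ)`. -/
noncomputable abbrev resF : Γ →* (↥F ≃ₐ[ℚ] ↥F) := AlgEquiv.restrictNormalHom F

theorem resF_surjective : Function.Surjective (resF F) :=
  AlgEquiv.restrictNormalHom_surjective Qbar

theorem resF_ker : (resF F).ker = F.fixingSubgroup := by
  have h : Normal ℚ ↥F := inferInstance
  exact @IntermediateField.restrictNormalHom_ker ℚ Qbar _ _ _ F h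

/-- `H = π⁻¹ C`. -/
noncomputable abbrev grpH : Subgroup Γ := C.comap (resF F)

/-- The module `M = Ind_C^D σ` inflated to `Γ` (Mathlib's `coind`, right translation). -/
noncomputable abbrev modM : Rep.{0} (ZMod p) Γ :=
  Rep.of ((Representation.coind C.subtype σ).comp (resF F))

/-- The module `W` over `H = π⁻¹ C`. -/
noncomputable abbrev modWH : Rep.{0} (ZMod p) ↥(grpH F C) :=
  Rep.of (σ.comp ((resF F).subgroupComap C))

/-- The level basis of `H` pulled back from the fields unramified outside `S`. -/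
noncomputable abbrev basisH : LevelCoh28.LevelBasis ↥(grpH F C) :=
  pullBasisS (grpH F C).subtype S

section Hyp

variable (hF : F.IsUnramifiedOutside S)

include hF in
theorem hker : ∃ U ∈ (globalBasis S).sets, U ≤ (resF F).ker :=
  ⟨F.fixingSubgroup, ⟨F, hF, rfl⟩, le_of_eq (resF_ker F).symm⟩

theorem hcomap : ∀ U ∈ (globalBasis S).sets,
    U.comap (grpH F C).subtype ∈ (basisH S F C).sets := by
  rintro _ ⟨F', hF', rfl⟩
  exact ⟨F', hF', rfl⟩

theorem hind : ∀ V ∈ (basisH S F C).sets, ∃ U ∈ (globalBasis S).sets,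
    V = U.comap (grpH F C).subtype := by
  rintro _ ⟨F', hF', rfl⟩
  exact ⟨_, ⟨F', hF', rfl⟩, rfl⟩

/-- **Shapiro, degree 1.** -/
noncomputable def h1Equiv :
    LevelCoh28.H1 (globalBasis S) (modM F C σ) ≃ₗ[ZMod p]
      LevelCoh28.H1 (basisH S F C) (modWH F C σ) :=
  Abstract.h1Equiv (resF F) C σ (globalBasis S) (basisH S F C) (hker S F hF) (hcomap S F C)
    (hind S F C) (resF_surjective F)

/-- **Shapiro, degree 2.** -/
noncomputable def h2Equiv :
    LevelCoh28.H2 (globalBasis S) (modM F C σ) ≃ₗ[ZMod p]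
      LevelCoh28.H2 (basisH S F C) (modWH F C σ) :=
  Abstract.h2Equiv (resF F) C σ (globalBasis S) (basisH S F C) (hker S F hF) (hcomap S F C)
    (hind S F C) (resF_surjective F)

include hF in
/-- **C3-T3, `H¹`.** -/
theorem finrank_H1 :
    Module.finrank (ZMod p) (LevelCoh28.H1 (globalBasis S)
        (Rep.of ((Representation.coind C.subtype σ).comp (AlgEquiv.restrictNormalHom F)) :
          Rep.{0} (ZMod p) Γ)) =
      Module.finrank (ZMod p) (LevelCoh28.H1
        (pullBasisS (C.comap (AlgEquiv.restrictNormalHom F : Γ →* (↥F ≃ₐ[ℚ] ↥F))).subtype S)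
        (Rep.of (σ.comp ((AlgEquiv.restrictNormalHom F : Γ →* (↥F ≃ₐ[ℚ] ↥F)).subgroupComap C)) :
          Rep.{0} (ZMod p) ↥(C.comap (AlgEquiv.restrictNormalHom F : Γ →* (↥F ≃ₐ[ℚ] ↥F))))) :=
  (h1Equiv S F C σ hF).finrank_eq

include hF in
/-- **C3-T3, `H²`.** -/
theorem finrank_H2 :
    Module.finrank (ZMod p) (LevelCoh28.H2 (globalBasis S)
        (Rep.of ((Representation.coind C.subtype σ).comp (AlgEquiv.restrictNormalHom F)) :
          Rep.{0} (ZMod p) Γ)) =
      Module.finrank (ZMod p) (LevelCoh28.H2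
        (pullBasisS (C.comap (AlgEquiv.restrictNormalHom F : Γ →* (↥F ≃ₐ[ℚ] ↥F))).subtype S)
        (Rep.of (σ.comp ((AlgEquiv.restrictNormalHom F : Γ →* (↥F ≃ₐ[ℚ] ↥F)).subgroupComap C)) :
          Rep.{0} (ZMod p) ↥(C.comap (AlgEquiv.restrictNormalHom F : Γ →* (↥F ≃ₐ[ℚ] ↥F))))) :=
  (h2Equiv S F C σ hF).finrank_eq

end Hyp

/-- **Shapiro, degree 0**: `M^Γ ≃ W^C`. -/
noncomputable def h0Equiv : ↥(modM F C σ).ρ.invariants ≃ₗ[ZMod p] ↥σ.invariants :=
  Abstract.h0Equiv (resF F) C σ (resF_surjective F)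

/-- **Shapiro, degree 0**: `M^Γ ≃ WH^H`. -/
noncomputable def h0Equiv' :
    ↥(modM F C σ).ρ.invariants ≃ₗ[ZMod p] ↥(modWH F C σ).ρ.invariants :=
  Abstract.h0Equiv' (resF F) C σ (resF_surjective F)

theorem invariants_modWH : (modWH F C σ).ρ.invariants = σ.invariants :=
  Abstract.invariants_resComap (resF F) C σ (resF_surjective F)

/-- **C3-T3, `H⁰`.** -/
theorem finrank_H0 :
    Module.finrank (ZMod p) ↥(Rep.of ((Representation.coind C.subtype σ).comp
        (AlgEquiv.restrictNormalHom F)) : Rep.{0} (ZMod p) Γ).ρ.invariants =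
      Module.finrank (ZMod p) ↥(Rep.of (σ.comp ((AlgEquiv.restrictNormalHom F :
        Γ →* (↥F ≃ₐ[ℚ] ↥F)).subgroupComap C)) :
          Rep.{0} (ZMod p) ↥(C.comap (AlgEquiv.restrictNormalHom F :
            Γ →* (↥F ≃ₐ[ℚ] ↥F)))).ρ.invariants :=
  (h0Equiv' F C σ).finrank_eq

/-- `h⁰(G_ℚ, M) = dim W^C`. -/
theorem h0g_modM : GWIface97.h0g (modM F C σ) = Module.finrank (ZMod p) ↥σ.invariants :=
  (h0Equiv F C σ).finrank_eq

/-! ### `M` is a good coefficient module -/

theorem modM_ρ_of_mem_fixingSubgroup {g : Γ} (hg : g ∈ F.fixingSubgroup) :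
    (modM F C σ).ρ g = 1 :=
  Abstract.inflCoind_ρ_of_mem_ker (resF F) C σ (by rw [resF_ker]; exact hg)

instance finiteDimensional_modM [FiniteDimensional (ZMod p) W] :
    FiniteDimensional (ZMod p) (modM F C σ) := by
  haveI : Finite (↥F ≃ₐ[ℚ] ↥F) := inferInstance
  show FiniteDimensional (ZMod p) ↥(Representation.coindV C.subtype σ)
  infer_instance

/-- **C3-T3**: `M` satisfies the standing hypotheses of S55 / Greenberg–Wiles. -/
theorem isGood_modM [FiniteDimensional (ZMod p) W] (hF : F.IsUnramifiedOutside S) :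
    GWIface97.IsGood S (Rep.of ((Representation.coind C.subtype σ).comp
      (AlgEquiv.restrictNormalHom F)) : Rep.{0} (ZMod p) Γ) where
  fin := finiteDimensional_modM F C σ
  smooth m := ⟨F, inferInstance, fun s hs => by
    rw [modM_ρ_of_mem_fixingSubgroup F C σ hs]
    rfl⟩
  unram q hq A hA g hg := modM_ρ_of_mem_fixingSubgroup F C σ (hF.2 q hq A hA hg)

theorem finrank_modM [FiniteDimensional (ZMod p) W] :
    Module.finrank (ZMod p) (modM F C σ) =
      Module.finrank (ZMod p) ↥(Representation.coindV C.subtype σ) := rfl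

end Fermat.Agent.TW.TateShap6.Main
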