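/-
Programme TW (S56), sub-programme C3, brick C3-T3 (adapter towards C3-T4a), helper6.

The group `H = π⁻¹ C` of `TateShap6/Main` is the absolute Galois group of the field
`K' = fixK F C = ℚ̄^H` (`= F^C`):  `(fixK F C).fixingSubgroup = H`, `K' ≤ F`,
`[Gal(ℚ̄/K') : Gal(ℚ̄/F)] = #C`, and the Shapiro isomorphisms of `Main` are restated with the group
`↥(fixK F C).fixingSubgroup` (the shape consumed by `TateKum22.Units.finrank_H1_le`).
More generally they are restated for ANY subgroup `H'` equal to `H` and any representation of `H'`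
on `W` given pointwise by `σ (π h)`.
-/
import Mathlib
import Fermat.Agent.TW.TateShap6.Main

set_option autoImplicit false
set_option linter.unusedSectionVars false
set_option linter.style.haveILetI false
set_option synthInstance.maxHeartbeats 200000

namespace Fermat.Agent.TW.TateShap6.FixedField

open Fermat.Agent.PT.PRO Fermat.Agent.PT.BR Fermat.Agent.PT.BR.LevelBridge13
open Fermat.Agent.TW.TateShap6 Fermat.Agent.TW.TateShap6.Main

local notation "Qbar" => AlgebraicClosure ℚ
local notation "Γ" => (AlgebraicClosure ℚ ≃ₐ[ℚ] AlgebraicClosure ℚ)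

local instance isAlgClosureQbarFF6 : IsAlgClosure ℚ Qbar := ⟨inferInstance, inferInstance⟩
local instance normalQbarFF6 : Normal ℚ Qbar := IsAlgClosure.normal ℚ Qbar
local instance isGaloisQbarFF6 : IsGalois ℚ Qbar := IsAlgClosure.isGalois ℚ Qbar

variable {p : ℕ} [Fact p.Prime] (S : Finset Nat.Primes) (F : IntermediateField ℚ Qbar)
  [FiniteDimensional ℚ F] [IsGalois ℚ F]
  (C : Subgroup (↥F ≃ₐ[ℚ] ↥F)) {W : Type} [AddCommGroup W] [Module (ZMod p) W]
  (σ : Representation (ZMod p) C W)

/-! ### Transport along an equality of subgroups -/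

section Transport

variable (H' : Subgroup Γ) (hH : H' = grpH F C) (ρ' : Representation (ZMod p) ↥H' W)
  (hρ' : ∀ (h : ↥H') (w : W), ρ' h w = σ ⟨resF F h, hH ▸ h.2⟩ w)

include hH hρ' in
/-- **Shapiro, degree 1**, for a subgroup `H'` equal to `π⁻¹ C`. -/
theorem finrank_H1_of_eq (hF : F.IsUnramifiedOutside S) :
    Module.finrank (ZMod p) (LevelCoh28.H1 (globalBasis S) (modM F C σ)) =
      Module.finrank (ZMod p) (LevelCoh28.H1 (pullBasisS H'.subtype S)
        (Rep.of ρ' : Rep.{0} (ZMod p) ↥H')) := by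
  subst hH
  have : ρ' = σ.comp ((resF F).subgroupComap C) := by
    ext h w
    exact hρ' h w
  subst this
  exact finrank_H1 S F C σ hF

include hH hρ' in
/-- **Shapiro, degree 2**, for a subgroup `H'` equal to `π⁻¹ C`. -/
theorem finrank_H2_of_eq (hF : F.IsUnramifiedOutside S) :
    Module.finrank (ZMod p) (LevelCoh28.H2 (globalBasis S) (modM F C σ)) =
      Module.finrank (ZMod p) (LevelCoh28.H2 (pullBasisS H'.subtype S)
        (Rep.of ρ' : Rep.{0} (ZMod p) ↥H')) := by
  subst hH
  have : ρ' = σ.comp ((resF F).subgroupComap C) := by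
    ext h w
    exact hρ' h w
  subst this
  exact finrank_H2 S F C σ hF

include hH hρ' in
/-- **Shapiro, degree 0**, for a subgroup `H'` equal to `π⁻¹ C`. -/
theorem finrank_H0_of_eq :
    Module.finrank (ZMod p) ↥(modM F C σ).ρ.invariants =
      Module.finrank (ZMod p) ↥(Rep.of ρ' : Rep.{0} (ZMod p) ↥H').ρ.invariants := by
  subst hH
  have : ρ' = σ.comp ((resF F).subgroupComap C) := by
    ext h w
    exact hρ' h w
  subst this
  exact finrank_H0 F C σ

include hH hρ' in
theorem invariants_of_eq : (Rep.of ρ' : Rep.{0} (ZMod p) ↥H').ρ.invariants = σ.invariants := by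
  subst hH
  have : ρ' = σ.comp ((resF F).subgroupComap C) := by
    ext h w
    exact hρ' h w
  subst this
  exact invariants_modWH F C σ

end Transport

/-! ### The fixed field of `H = π⁻¹ C` -/

theorem fixingSubgroup_le_grpH : F.fixingSubgroup ≤ grpH F C := by
  intro g hg
  rw [← resF_ker F] at hg
  show resF F g ∈ C
  rw [MonoidHom.mem_ker.1 hg]
  exact C.one_mem

theorem isOpen_grpH : IsOpen ((grpH F C : Subgroup Γ) : Set Γ) :=
  Subgroup.isOpen_mono (fixingSubgroup_le_grpH F C) F.fixingSubgroup_isOpen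

/-- The field `K' = ℚ̄^H = F^C`. -/
noncomputable def fixK : IntermediateField ℚ Qbar := IntermediateField.fixedField (grpH F C)

theorem fixingSubgroup_fixK : (fixK F C).fixingSubgroup = grpH F C :=
  InfiniteGalois.fixingSubgroup_fixedField
    (⟨grpH F C, Subgroup.isClosed_of_isOpen _ (isOpen_grpH F C)⟩ : ClosedSubgroup Γ)

theorem fixK_le : fixK F C ≤ F := by
  have h1 := IntermediateField.fixedField_antitone (fixingSubgroup_le_grpH F C)
  rwa [InfiniteGalois.fixedField_fixingSubgroup] at h1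

instance finiteDimensional_fixK : FiniteDimensional ℚ ↥(fixK F C) :=
  FiniteDimensional.of_injective (IntermediateField.inclusion (fixK_le F C)).toLinearMap
    (IntermediateField.inclusion_injective (fixK_le F C))

/-- The map `Gal(ℚ̄/K') → C`. -/
noncomputable def toC : ↥(fixK F C).fixingSubgroup →* ↥C :=
  ((resF F).subgroupComap C).comp
    (MulEquiv.subgroupCongr (fixingSubgroup_fixK F C)).toMonoidHom

theorem coe_toC (h : ↥(fixK F C).fixingSubgroup) : ((toC F C h : C) : ↥F ≃ₐ[ℚ] ↥F) = resF F h :=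
  rfl

theorem toC_surjective : Function.Surjective (toC F C) := by
  intro c
  obtain ⟨g, hg⟩ := resF_surjective F (c : ↥F ≃ₐ[ℚ] ↥F)
  have hgH : g ∈ (fixK F C).fixingSubgroup := by
    rw [fixingSubgroup_fixK]
    show resF F g ∈ C
    rw [hg]
    exact c.2
  exact ⟨⟨g, hgH⟩, Subtype.ext hg⟩

theorem ker_toC : (toC F C).ker = F.fixingSubgroup.subgroupOf (fixK F C).fixingSubgroup := by
  ext h
  rw [MonoidHom.mem_ker, Subgroup.mem_subgroupOf, ← resF_ker F, MonoidHom.mem_ker]
  constructor
  · intro hh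
    have := congrArg (Subtype.val : ↥C → (↥F ≃ₐ[ℚ] ↥F)) hh
    exact this
  · intro hh
    exact Subtype.ext hh

/-- `[Gal(ℚ̄/K') : Gal(ℚ̄/F)] = #C`. -/
theorem index_eq_card :
    (F.fixingSubgroup.subgroupOf (fixK F C).fixingSubgroup).index = Nat.card C := by
  rw [← ker_toC, Subgroup.index_ker, MonoidHom.range_eq_top.2 (toC_surjective F C)]
  exact Nat.card_congr Subgroup.topEquiv.toEquiv

/-- `W` as a module over `Gal(ℚ̄/K')`. -/
noncomputable abbrev modWK : Rep.{0} (ZMod p) ↥(fixK F C).fixingSubgroup :=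
  Rep.of (σ.comp (toC F C))

theorem modWK_ρ_apply (h : ↥(fixK F C).fixingSubgroup) (w : W) :
    (modWK F C σ).ρ h w = σ (toC F C h) w := rfl

/-- `Gal(ℚ̄/F)` acts trivially on `W`. -/
theorem modWK_ρ_of_mem (n : ↥(fixK F C).fixingSubgroup) (hn : (n : Γ) ∈ F.fixingSubgroup) :
    (modWK F C σ).ρ n = 1 := by
  have h1 : n ∈ (toC F C).ker := by
    rw [ker_toC, Subgroup.mem_subgroupOf]
    exact hn
  show σ (toC F C n) = 1
  rw [MonoidHom.mem_ker.1 h1, map_one]

instance finiteDimensional_modWK [FiniteDimensional (ZMod p) W] :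
    FiniteDimensional (ZMod p) (modWK F C σ) :=
  inferInstanceAs (FiniteDimensional (ZMod p) W)

/-- **C3-T3 in the shape of C3-T4a, `H¹`**: `H¹(G_S, Ind_C^D σ) ≅ H¹(G_{K',S}, W)`. -/
theorem finrank_H1_fixK (hF : F.IsUnramifiedOutside S) :
    Module.finrank (ZMod p) (LevelCoh28.H1 (globalBasis S) (modM F C σ)) =
      Module.finrank (ZMod p) (LevelCoh28.H1
        (pullBasisS (fixK F C).fixingSubgroup.subtype S) (modWK F C σ)) :=
  finrank_H1_of_eq S F C σ _ (fixingSubgroup_fixK F C) _ (fun _ _ => rfl) hF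

/-- **C3-T3 in the shape of C3-T4a, `H²`.** -/
theorem finrank_H2_fixK (hF : F.IsUnramifiedOutside S) :
    Module.finrank (ZMod p) (LevelCoh28.H2 (globalBasis S) (modM F C σ)) =
      Module.finrank (ZMod p) (LevelCoh28.H2
        (pullBasisS (fixK F C).fixingSubgroup.subtype S) (modWK F C σ)) :=
  finrank_H2_of_eq S F C σ _ (fixingSubgroup_fixK F C) _ (fun _ _ => rfl) hF

/-- **C3-T3 in the shape of C3-T4a, `H⁰`.** -/
theorem finrank_H0_fixK :
    Module.finrank (ZMod p) ↥(modM F C σ).ρ.invariants =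
      Module.finrank (ZMod p) ↥(modWK F C σ).ρ.invariants :=
  finrank_H0_of_eq F C σ _ (fixingSubgroup_fixK F C) _ (fun _ _ => rfl)

theorem invariants_modWK : (modWK F C σ).ρ.invariants = σ.invariants :=
  invariants_of_eq F C σ _ (fixingSubgroup_fixK F C) _ (fun _ _ => rfl)

end Fermat.Agent.TW.TateShap6.FixedField
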