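/-
Programme TW (S56), sub-programme C3, brick C3-T3 (complement), helper6.

The dimension of Mathlib's coinduced module: for `C ≤ D` of finite index and
`σ : Representation k C W` over a field `k`,
`dim_k (coindV C.subtype σ) = [D : C] · dim_k W`
(restriction to a set of representatives of the right cosets `C \ D` is a linear equivalence
`coindV C.subtype σ ≃ₗ (C \ D → W)`).
-/
import Mathlib

set_option autoImplicit false
set_option linter.style.haveILetI false

namespace Fermat.Agent.TW.TateShap6.Dim

variable {k D W : Type*} [Semiring k] [Group D] [AddCommMonoid W] [Module k W]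
  (C : Subgroup D) (σ : Representation k C W)

/-- A representative of a right coset `C d`. -/
noncomputable def sec (q : Quotient (QuotientGroup.rightRel C)) : D := Quotient.out q

theorem mk_sec (q : Quotient (QuotientGroup.rightRel C)) :
    (Quotient.mk'' (sec C q) : Quotient (QuotientGroup.rightRel C)) = q := Quotient.out_eq' q

theorem mul_inv_sec_mem {d : D} {q : Quotient (QuotientGroup.rightRel C)}
    (h : (Quotient.mk'' d : Quotient (QuotientGroup.rightRel C)) = q) :
    d * (sec C q)⁻¹ ∈ C := by
  have h1 : (QuotientGroup.rightRel C).r (sec C q) d :=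
    Quotient.exact' ((mk_sec C q).trans h.symm)
  rwa [QuotientGroup.rightRel_apply] at h1

theorem mk_mul_left (c : C) (d : D) :
    (Quotient.mk'' ((c : D) * d) : Quotient (QuotientGroup.rightRel C)) = Quotient.mk'' d := by
  apply Quotient.sound'
  rw [QuotientGroup.rightRel_apply]
  have : d * ((c : D) * d)⁻¹ = ((c⁻¹ : C) : D) := by
    rw [mul_inv_rev, mul_inv_cancel_left]
    rfl
  rw [this]
  exact (c⁻¹).2

/-- The function on `D` attached to a function on the right cosets. -/
noncomputable def extend (g : Quotient (QuotientGroup.rightRel C) → W) (d : D) : W :=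
  σ ⟨d * (sec C (Quotient.mk'' d))⁻¹, mul_inv_sec_mem C rfl⟩ (g (Quotient.mk'' d))

theorem extend_eq (g : Quotient (QuotientGroup.rightRel C) → W) {d : D}
    {q : Quotient (QuotientGroup.rightRel C)}
    (h : (Quotient.mk'' d : Quotient (QuotientGroup.rightRel C)) = q) :
    extend C σ g d = σ ⟨d * (sec C q)⁻¹, mul_inv_sec_mem C h⟩ (g q) := by
  subst h
  rfl

theorem extend_mem (g : Quotient (QuotientGroup.rightRel C) → W) :
    extend C σ g ∈ Representation.coindV C.subtype σ := by
  intro c d
  show extend C σ g ((c : D) * d) = σ c (extend C σ g d)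
  rw [extend_eq C σ g (mk_mul_left C c d), extend_eq C σ g (rfl : Quotient.mk'' d = _),
    ← Module.End.mul_apply, ← map_mul]
  congr 2
  exact Subtype.ext (mul_assoc _ _ _)

/-- Restriction to right coset representatives: `coindV C.subtype σ ≃ₗ (C \ D → W)`. -/
noncomputable def coindVEquivFun :
    ↥(Representation.coindV C.subtype σ) ≃ₗ[k] (Quotient (QuotientGroup.rightRel C) → W) where
  toFun f q := f.1 (sec C q)
  map_add' _ _ := rfl
  map_smul' _ _ := rfl
  invFun g := ⟨extend C σ g, extend_mem C σ g⟩
  left_inv f := by
    refine Subtype.ext (funext fun d => ?_)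
    show σ ⟨d * (sec C (Quotient.mk'' d))⁻¹, _⟩ (f.1 (sec C (Quotient.mk'' d))) = f.1 d
    rw [← f.2 ⟨d * (sec C (Quotient.mk'' d))⁻¹, mul_inv_sec_mem C rfl⟩]
    apply congrArg f.1
    show d * (sec C (Quotient.mk'' d))⁻¹ * sec C (Quotient.mk'' d) = d
    rw [inv_mul_cancel_right]
  right_inv g := by
    funext q
    show extend C σ g (sec C q) = g q
    rw [extend_eq C σ g (mk_sec C q)]
    have : (⟨sec C q * (sec C q)⁻¹, mul_inv_sec_mem C (mk_sec C q)⟩ : C) = 1 :=
      Subtype.ext (mul_inv_cancel _)
    rw [this, map_one]
    rfl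

end Fermat.Agent.TW.TateShap6.Dim

namespace Fermat.Agent.TW.TateShap6.Dim

variable {k D W : Type*} [Field k] [Group D] [AddCommGroup W] [Module k W]
  (C : Subgroup D) (σ : Representation k C W)

/-- **`dim Coind_C^D σ = [D : C] · dim σ`.** -/
theorem finrank_coindV [C.FiniteIndex] [FiniteDimensional k W] :
    Module.finrank k ↥(Representation.coindV C.subtype σ) = C.index * Module.finrank k W := by
  classical
  haveI : Finite (D ⧸ C) := Subgroup.finite_quotient_of_finiteIndex
  haveI : Finite (Quotient (QuotientGroup.rightRel C)) :=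
    Finite.of_equiv _ (QuotientGroup.quotientRightRelEquivQuotientLeftRel C).symm
  haveI : Fintype (Quotient (QuotientGroup.rightRel C)) := Fintype.ofFinite _
  rw [(coindVEquivFun C σ).finrank_eq, Module.finrank_pi_fintype, Finset.sum_const,
    Finset.card_univ, smul_eq_mul, ← Nat.card_eq_fintype_card,
    Nat.card_congr (QuotientGroup.quotientRightRelEquivQuotientLeftRel C)]
  rfl

end Fermat.Agent.TW.TateShap6.Dim
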