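/-
Programme TW (S56), sub-programme C3, brick C3-T3 (complement), helper6.

`dim_{F_p} M = [Gal(F/ℚ) : C] · dim W` for the module `M = Ind_C^D σ` of `TateShap6/Main`.
-/
import Mathlib
import Fermat.Agent.TW.TateShap6.Main
import Fermat.Agent.TW.TateShap6.Dim

set_option autoImplicit false
set_option linter.unusedSectionVars false
set_option linter.style.haveILetI false
set_option synthInstance.maxHeartbeats 200000

namespace Fermat.Agent.TW.TateShap6.DimM

open Fermat.Agent.TW.TateShap6

local notation "Qbar" => AlgebraicClosure ℚ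
local notation "Γ" => (AlgebraicClosure ℚ ≃ₐ[ℚ] AlgebraicClosure ℚ)

variable {p : ℕ} [Fact p.Prime] (F : IntermediateField ℚ Qbar)
  [FiniteDimensional ℚ F] [IsGalois ℚ F]
  (C : Subgroup (↥F ≃ₐ[ℚ] ↥F)) {W : Type} [AddCommGroup W] [Module (ZMod p) W]
  (σ : Representation (ZMod p) C W)

/-- **`dim M = [D : C] · dim W`.** -/
theorem finrank_modM [FiniteDimensional (ZMod p) W] :
    Module.finrank (ZMod p) (Rep.of ((Representation.coind C.subtype σ).comp
      (AlgEquiv.restrictNormalHom F)) : Rep.{0} (ZMod p) Γ) =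
      C.index * Module.finrank (ZMod p) W := by
  haveI : Finite (↥F ≃ₐ[ℚ] ↥F) := inferInstance
  haveI : C.FiniteIndex := inferInstance
  exact Dim.finrank_coindV C σ

end Fermat.Agent.TW.TateShap6.DimM
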